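/-
S37 / package P-E (helper46): region lemmas, generic core.

`K` a field, `A` a valuation ring of `K`, `F / K` a field, `P` a place of `F / K`.

* `HasValues P`   : every element of `O_P` has a value in `K` (automatic for `K` algebraically
                    closed, `hasValues_of_isAlgClosed`).
* `valRing A P`   : the subring of the functions that take a value IN `A` at `P`
                    (the composite of the place `P` with the valuation ring `A`).  The "integral
                    region" of a function `y` is `{P | y ∈ valRing A P}`.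
* `mem_or_inv_mem_valRing`, `valSubring` : `valRing A P` is a valuation ring of `F`, hence
  integrally closed: `mem_valRing_of_isIntegral`, `mem_valRing_of_monic_rel` (E-a, abstract form:
  if `Φ(y, z) = 0` with `Φ ∈ ℤ[Z][Y]` monic in `Y` and `z` has a value in `A` at `P`, so has `y`).
* discs (E-b): `mem_valRing_iff_inDisc`, `units_valRing_iff_inDisc`, `not_units_valRing_iff`,
  `not_mem_valRing_iff`, and the Hauptmodul relation `mem_valRing_iff_of_rel`
  (`j x = nm(x)`, `nm` monic integral of degree `≥ 2` with `nm(0)` a unit of `A`  ⟹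
   `j` has a value in `A` iff `x` has a unit value).
* transport: `mem_valRing_restrictAlong_iff` (along `φ : F₁ →ₐ[K] F₂`), `smul_mem_valRing_smul_iff`
  (semilinear automorphisms stabilising `A`).
-/
import Mathlib
import Fermat.Prelude.Def_AlgebraicCurve_Correspondence
import Fermat.Prelude.Def_AlgebraicCurve_BaseChangeGalois
import Fermat.Agent.S24.Residue
import Fermat.Agent.S18.H74.CoreDefs

set_option autoImplicit false

open AlgebraicCurve

noncomputable section

namespace Fermat.Agent.S37.H46

open Fermat.Agent.S24 Fermat.Agent.S18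

section Basic

variable {K : Type*} [Field K] (A : ValuationSubring K) {F : Type*} [Field F] [Algebra K F]

/-- Every element of `O_P` has a value in `K`. -/
def HasValues (P : Place K F) : Prop :=
  ∀ f : F, f ∈ P.toValuationSubring →
    ∃ a : K, f - algebraMap K F a ∈ P.toValuationSubring.nonunits

theorem hasValues_of_isAlgClosed [IsAlgClosed K] (t : F)
    [Algebra.IsAlgebraic (IntermediateField.adjoin K {t}) F] (P : Place K F) : HasValues P :=
  fun _ hf => H94.exists_sub_mem_nonunits P.toValuationSubring P.algebraMap_mem' P.ne_top' t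
    (H94.isAlgebraic_adjoin t) hf

theorem mul_mem_nonunits_of_mem (O : ValuationSubring F) {a e : F} (ha : a ∈ O)
    (he : e ∈ O.nonunits) : a * e ∈ O.nonunits := by
  rw [ValuationSubring.mem_nonunits_iff] at he ⊢
  rw [map_mul]
  have h1 : O.valuation a ≤ 1 := (O.valuation_le_one_iff a).mpr ha
  calc O.valuation a * O.valuation e ≤ 1 * O.valuation e := by gcongr
    _ = O.valuation e := one_mul _
    _ < 1 := he

theorem algebraMap_mem_nonunits_iff (P : Place K F) (a : K) :
    algebraMap K F a ∈ P.toValuationSubring.nonunits ↔ a = 0 := by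
  constructor
  · intro h
    by_contra ha
    rw [ValuationSubring.mem_nonunits_iff_or] at h
    rcases h with h | h
    · exact ha ((map_eq_zero _).mp h)
    · exact h (by rw [← map_inv₀]; exact P.algebraMap_mem' _)
  · rintro rfl
    rw [map_zero]
    exact P.toValuationSubring.nonunits.zero_mem

/-- The functions with a value in `A` at `P`. -/
def valRing (P : Place K F) : Subring F where
  carrier := {f | ∃ c : K, c ∈ A ∧ f - algebraMap K F c ∈ P.toValuationSubring.nonunits}
  mul_mem' := by
    rintro f g ⟨c, hc, hf⟩ ⟨d, hd, hg⟩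
    refine ⟨c * d, mul_mem hc hd, ?_⟩
    have hgO : g ∈ P.toValuationSubring := by
      have h1 := add_mem (ValuationSubring.nonunits_subset hg : g - algebraMap K F d ∈ P.toValuationSubring)
        (P.algebraMap_mem' d)
      simpa using h1
    have h1 := mul_mem_nonunits_of_mem P.toValuationSubring hgO hf
    have h2 := mul_mem_nonunits_of_mem P.toValuationSubring (P.algebraMap_mem' c) hg
    have h3 := P.toValuationSubring.nonunits.add_mem h1 h2
    have e : f * g - algebraMap K F (c * d)
        = g * (f - algebraMap K F c) + algebraMap K F c * (g - algebraMap K F d) := by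
      rw [map_mul]; ring
    rw [e]
    exact h3
  one_mem' := ⟨1, A.one_mem, by
    rw [map_one, sub_self]; exact P.toValuationSubring.nonunits.zero_mem⟩
  add_mem' := by
    rintro f g ⟨c, hc, hf⟩ ⟨d, hd, hg⟩
    refine ⟨c + d, add_mem hc hd, ?_⟩
    have e : f + g - algebraMap K F (c + d)
        = (f - algebraMap K F c) + (g - algebraMap K F d) := by
      rw [map_add]; ring
    rw [e]
    exact P.toValuationSubring.nonunits.add_mem hf hg
  zero_mem' := ⟨0, A.zero_mem, by
    rw [map_zero, sub_self]; exact P.toValuationSubring.nonunits.zero_mem⟩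
  neg_mem' := by
    rintro f ⟨c, hc, hf⟩
    refine ⟨-c, neg_mem hc, ?_⟩
    have e : -f - algebraMap K F (-c) = -(f - algebraMap K F c) := by
      rw [map_neg]; ring
    rw [e]
    exact P.toValuationSubring.nonunits.neg_mem hf

variable {A}

theorem mem_valRing_iff {P : Place K F} {f : F} :
    f ∈ valRing A P ↔
      ∃ c : K, c ∈ A ∧ f - algebraMap K F c ∈ P.toValuationSubring.nonunits := Iff.rfl

theorem mem_of_mem_valRing {P : Place K F} {f : F} (hf : f ∈ valRing A P) :
    f ∈ P.toValuationSubring := by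
  obtain ⟨c, -, hc⟩ := hf
  have h1 := add_mem (ValuationSubring.nonunits_subset hc : f - algebraMap K F c ∈ P.toValuationSubring)
    (P.algebraMap_mem' c)
  simpa using h1

theorem ord_nonneg_of_mem_valRing {P : Place K F} {f : F} (hf : f ∈ valRing A P) :
    0 ≤ P.ord f :=
  H52.ord_nonneg_of_mem P (mem_of_mem_valRing hf)

theorem nonunits_mem_valRing {P : Place K F} {f : F} (hf : f ∈ P.toValuationSubring.nonunits) :
    f ∈ valRing A P :=
  ⟨0, A.zero_mem, by rwa [map_zero, sub_zero]⟩

theorem algebraMap_mem_valRing_iff {P : Place K F} {a : K} :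
    algebraMap K F a ∈ valRing A P ↔ a ∈ A := by
  constructor
  · rintro ⟨c, hc, h⟩
    rw [← map_sub, algebraMap_mem_nonunits_iff, sub_eq_zero] at h
    exact h ▸ hc
  · intro ha
    exact ⟨a, ha, by rw [sub_self]; exact P.toValuationSubring.nonunits.zero_mem⟩

theorem intCast_mem_valRing (P : Place K F) (n : ℤ) : (n : F) ∈ valRing A P :=
  intCast_mem (valRing A P) n

/-- The value of a function at `P` is unique. -/
theorem value_unique (P : Place K F) {f : F} {c c' : K}
    (hc : f - algebraMap K F c ∈ P.toValuationSubring.nonunits)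
    (hc' : f - algebraMap K F c' ∈ P.toValuationSubring.nonunits) : c = c' :=
  H94.center_unique P.toValuationSubring P.algebraMap_mem' hc hc'

/-- The value of a product is the product of the values. -/
theorem value_mul (P : Place K F) {f g : F} {c d : K}
    (hf : f - algebraMap K F c ∈ P.toValuationSubring.nonunits)
    (hg : g - algebraMap K F d ∈ P.toValuationSubring.nonunits) :
    f * g - algebraMap K F (c * d) ∈ P.toValuationSubring.nonunits := by
  have hgO : g ∈ P.toValuationSubring := by
    have h1 := add_mem (ValuationSubring.nonunits_subset hg : g - algebraMap K F d ∈ P.toValuationSubring)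
      (P.algebraMap_mem' d)
    simpa using h1
  have h1 := mul_mem_nonunits_of_mem P.toValuationSubring hgO hf
  have h2 := mul_mem_nonunits_of_mem P.toValuationSubring (P.algebraMap_mem' c) hg
  have h3 := P.toValuationSubring.nonunits.add_mem h1 h2
  have e : f * g - algebraMap K F (c * d)
      = g * (f - algebraMap K F c) + algebraMap K F c * (g - algebraMap K F d) := by
    rw [map_mul]; ring
  rw [e]
  exact h3

/-- The value of the inverse is the inverse of the value, if the latter is not `0`. -/
theorem value_inv (P : Place K F) {f : F} {a : K} (ha : a ≠ 0)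
    (h : f - algebraMap K F a ∈ P.toValuationSubring.nonunits) :
    f⁻¹ - algebraMap K F a⁻¹ ∈ P.toValuationSubring.nonunits := by
  have hfO : f ∈ P.toValuationSubring := by
    have h1 := add_mem (ValuationSubring.nonunits_subset h : f - algebraMap K F a ∈ P.toValuationSubring)
      (P.algebraMap_mem' a)
    simpa using h1
  have hfm : f ∉ P.toValuationSubring.nonunits := by
    intro hf
    have h1 := P.toValuationSubring.nonunits.sub_mem hf h
    rw [sub_sub_cancel, algebraMap_mem_nonunits_iff] at h1
    exact ha h1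
  rw [ValuationSubring.mem_nonunits_iff_or] at hfm
  have hf0 : f ≠ 0 := fun h0 => hfm (Or.inl h0)
  have hfi : f⁻¹ ∈ P.toValuationSubring := by
    by_contra hcon
    exact hfm (Or.inr hcon)
  have ha0 : algebraMap K F a ≠ 0 := (map_ne_zero _).mpr ha
  have e : f⁻¹ - algebraMap K F a⁻¹
      = (f⁻¹ * algebraMap K F a⁻¹) * (-(f - algebraMap K F a)) := by
    rw [map_inv₀]
    field_simp
    ring
  rw [e]
  exact mul_mem_nonunits_of_mem P.toValuationSubring
    (mul_mem hfi (P.algebraMap_mem' _))
    (P.toValuationSubring.nonunits.neg_mem h)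

/-- `valRing A P` is a valuation ring of `F`. -/
theorem mem_or_inv_mem_valRing {P : Place K F} (hP : HasValues P) (f : F) :
    f ∈ valRing A P ∨ f⁻¹ ∈ valRing A P := by
  have key : ∀ g : F, g ∈ P.toValuationSubring → g ∈ valRing A P ∨ g⁻¹ ∈ valRing A P := by
    intro g hg
    obtain ⟨a, ha⟩ := hP g hg
    by_cases haA : a ∈ A
    · exact Or.inl ⟨a, haA, ha⟩
    · right
      have ha0 : a ≠ 0 := fun h => haA (h ▸ A.zero_mem)
      have hai : a⁻¹ ∈ A := (A.mem_or_inv_mem a).resolve_left haA
      exact ⟨a⁻¹, hai, value_inv P ha0 ha⟩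
  rcases P.toValuationSubring.mem_or_inv_mem f with h | h
  · exact key f h
  · rcases key f⁻¹ h with h' | h'
    · exact Or.inr h'
    · rw [inv_inv] at h'
      exact Or.inl h'

variable (A) in
/-- `valRing A P` as a valuation subring of `F`. -/
def valSubring {P : Place K F} (hP : HasValues P) : ValuationSubring F :=
  { valRing A P with mem_or_inv_mem' := mem_or_inv_mem_valRing hP }

theorem mem_valSubring_iff {P : Place K F} (hP : HasValues P) {f : F} :
    f ∈ valSubring A hP ↔ f ∈ valRing A P := Iff.rfl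

/-- `valRing A P` is integrally closed in `F`. -/
theorem mem_valRing_of_isIntegral_valSubring {P : Place K F} (hP : HasValues P) {y : F}
    (hy : IsIntegral (valSubring A hP) y) : y ∈ valRing A P := by
  obtain ⟨b, hb⟩ := (IsIntegrallyClosed.isIntegral_iff (R := valSubring A hP) (K := F)).mp hy
  rw [← hb]
  exact b.2

/-- An element integral over a subring of `valRing A P` lies in `valRing A P`. -/
theorem mem_valRing_of_isIntegral {P : Place K F} (hP : HasValues P) {R : Subring F}
    (hR : R ≤ valRing A P) {y : F} (hy : IsIntegral R y) : y ∈ valRing A P := by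
  obtain ⟨p, hp, hpy⟩ := hy
  let ι : R →+* valSubring A hP :=
    { toFun := fun r => ⟨r.1, hR r.2⟩
      map_one' := rfl
      map_mul' := fun _ _ => rfl
      map_zero' := rfl
      map_add' := fun _ _ => rfl }
  refine mem_valRing_of_isIntegral_valSubring hP ⟨p.map ι, hp.map _, ?_⟩
  rw [Polynomial.eval₂_map]
  exact hpy

/-- **(E-a), abstract form.** If `Φ(y, z) = 0` with `Φ ∈ ℤ[Z][Y]` monic in `Y`, and `z` has a
value in `A` at `P`, then `y` has a value in `A` at `P`. -/
theorem mem_valRing_of_monic_rel {P : Place K F} (hP : HasValues P)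
    (Φ : Polynomial (Polynomial ℤ)) (hΦ : Φ.Monic) {y z : F} (hz : z ∈ valRing A P)
    (h : (Φ.map (Polynomial.eval₂RingHom (Int.castRingHom F) z)).eval y = 0) :
    y ∈ valRing A P := by
  let B := valSubring A hP
  let zB : B := ⟨z, hz⟩
  refine mem_valRing_of_isIntegral_valSubring hP
    ⟨Φ.map (Polynomial.eval₂RingHom (Int.castRingHom B) zB), hΦ.map _, ?_⟩
  rw [Polynomial.eval₂_map]
  have e : (algebraMap B F).comp (Polynomial.eval₂RingHom (Int.castRingHom B) zB)
      = Polynomial.eval₂RingHom (Int.castRingHom F) z := by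
    apply Polynomial.ringHom_ext
    · intro n
      simp
    · simp only [RingHom.comp_apply, Polynomial.coe_eval₂RingHom, Polynomial.eval₂_X]
      rfl
  rw [e, Polynomial.eval₂_eq_eval_map]
  exact h

/-! ### Discs (E-b) -/

theorem sub_algebraMap_ne_zero {f : F} (hf : ∀ c : K, f ≠ algebraMap K F c) (c : K) :
    f - algebraMap K F c ≠ 0 := fun h => hf c (sub_eq_zero.mp h)

theorem inv_ne_algebraMap {f : F} (hf : ∀ c : K, f ≠ algebraMap K F c) (c : K) :
    f⁻¹ ≠ algebraMap K F c := by
  intro h
  apply hf c⁻¹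
  rw [map_inv₀, ← h, inv_inv]

/-- `InDisc` in terms of the maximal ideal. -/
theorem inDisc_iff {P : Place K F} {f : F} (hf : ∀ c : K, f ≠ algebraMap K F c) (b : K) :
    H74.InDisc A f b P ↔
      ∃ c : K, c - b ∈ A.nonunits ∧ f - algebraMap K F c ∈ P.toValuationSubring.nonunits := by
  unfold H74.InDisc
  refine exists_congr fun c => and_congr_right fun _ => ?_
  exact H94.ord_pos_iff_mem_nonunits P (sub_algebraMap_ne_zero hf c)

/-- The integral region of `f` is the union of the finite residue discs of `f`. -/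
theorem mem_valRing_iff_inDisc {P : Place K F} {f : F} (hf : ∀ c : K, f ≠ algebraMap K F c) :
    f ∈ valRing A P ↔ ∃ b : K, b ∈ A ∧ H74.InDisc A f b P := by
  constructor
  · rintro ⟨c, hc, h⟩
    refine ⟨c, hc, (inDisc_iff hf c).mpr ⟨c, ?_, h⟩⟩
    rw [sub_self]
    exact A.nonunits.zero_mem
  · rintro ⟨b, hb, hd⟩
    obtain ⟨c, hcb, h⟩ := (inDisc_iff hf b).mp hd
    refine ⟨c, ?_, h⟩
    have h1 := add_mem (ValuationSubring.nonunits_subset hcb : c - b ∈ A) hb
    simpa using h1

theorem mem_valRing_iff_ord {P : Place K F} {f : F} (hf : ∀ c : K, f ≠ algebraMap K F c) :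
    f ∈ valRing A P ↔ ∃ c : K, c ∈ A ∧ 0 < P.ord (f - algebraMap K F c) := by
  refine exists_congr fun c => and_congr_right fun _ => ?_
  exact (H94.ord_pos_iff_mem_nonunits P (sub_algebraMap_ne_zero hf c)).symm

theorem not_mem_nonunits_of_inv_mem {b : K} (hb : b ≠ 0) (hbi : b⁻¹ ∈ A) : b ∉ A.nonunits := by
  rw [ValuationSubring.mem_nonunits_iff_or]
  rintro (h | h)
  · exact hb h
  · exact h hbi

theorem inv_mem_of_not_mem_nonunits {b : K} (hb : b ∉ A.nonunits) : b ≠ 0 ∧ b⁻¹ ∈ A := by
  rw [ValuationSubring.mem_nonunits_iff_or] at hb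
  constructor
  · exact fun h => hb (Or.inl h)
  · by_contra h
    exact hb (Or.inr h)

/-- Unit values: `f` and `f⁻¹` both have a value in `A` at `P` iff `P` lies in a residue disc
of `f` around a unit of `A`. -/
theorem units_valRing_iff_inDisc {P : Place K F} {f : F} (hf : ∀ c : K, f ≠ algebraMap K F c) :
    (f ∈ valRing A P ∧ f⁻¹ ∈ valRing A P) ↔
      ∃ b : K, b ≠ 0 ∧ b ∈ A ∧ b⁻¹ ∈ A ∧ H74.InDisc A f b P := by
  have hf0 : f ≠ 0 := fun h => hf 0 (by rw [h, map_zero])
  constructor
  · rintro ⟨⟨c, hc, h⟩, ⟨c', hc', h'⟩⟩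
    have h1 := value_mul P h h'
    rw [mul_inv_cancel₀ hf0] at h1
    have h2 : (1 : F) - algebraMap K F 1 ∈ P.toValuationSubring.nonunits := by
      rw [map_one, sub_self]; exact P.toValuationSubring.nonunits.zero_mem
    have h3 : c * c' = 1 := value_unique P h1 h2
    have hc0 : c ≠ 0 := left_ne_zero_of_mul_eq_one h3
    have hci : c⁻¹ = c' := (eq_inv_of_mul_eq_one_right h3).symm
    refine ⟨c, hc0, hc, hci ▸ hc', (inDisc_iff hf c).mpr ⟨c, ?_, h⟩⟩
    rw [sub_self]
    exact A.nonunits.zero_mem
  · rintro ⟨b, hb0, hb, hbi, hd⟩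
    obtain ⟨c, hcb, h⟩ := (inDisc_iff hf b).mp hd
    have hcA : c ∈ A := by
      have h1 := add_mem (ValuationSubring.nonunits_subset hcb : c - b ∈ A) hb
      simpa using h1
    have hcm : c ∉ A.nonunits := by
      intro hcm
      have h1 := A.nonunits.sub_mem hcm hcb
      rw [sub_sub_cancel] at h1
      exact not_mem_nonunits_of_inv_mem hb0 hbi h1
    obtain ⟨hc0, hci⟩ := inv_mem_of_not_mem_nonunits hcm
    exact ⟨⟨c, hcA, h⟩, ⟨c⁻¹, hci, value_inv P hc0 h⟩⟩

/-- A value in the maximal ideal of `A`: the disc of `0`. -/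
theorem inDisc_zero_iff {P : Place K F} {f : F} (hf : ∀ c : K, f ≠ algebraMap K F c) :
    H74.InDisc A f 0 P ↔ (f ∈ valRing A P ∧ f⁻¹ ∉ valRing A P) := by
  have hf0 : f ≠ 0 := fun h => hf 0 (by rw [h, map_zero])
  rw [inDisc_iff hf]
  constructor
  · rintro ⟨c, hc, h⟩
    rw [sub_zero] at hc
    refine ⟨⟨c, ValuationSubring.nonunits_subset hc, h⟩, ?_⟩
    rintro ⟨c', hc', h'⟩
    have h1 := value_mul P h h'
    rw [mul_inv_cancel₀ hf0] at h1
    have h2 : (1 : F) - algebraMap K F 1 ∈ P.toValuationSubring.nonunits := by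
      rw [map_one, sub_self]; exact P.toValuationSubring.nonunits.zero_mem
    have h3 : c * c' = 1 := value_unique P h1 h2
    have h4 : c' * c ∈ A.nonunits := mul_mem_nonunits_of_mem A hc' hc
    rw [mul_comm, h3] at h4
    rw [ValuationSubring.mem_nonunits_iff_or] at h4
    rcases h4 with h4 | h4
    · exact one_ne_zero h4
    · exact h4 (by rw [inv_one]; exact A.one_mem)
  · rintro ⟨⟨c, hc, h⟩, hni⟩
    refine ⟨c, ?_, h⟩
    rw [sub_zero]
    by_contra hcm
    obtain ⟨hc0, hci⟩ := inv_mem_of_not_mem_nonunits hcm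
    exact hni ⟨c⁻¹, hci, value_inv P hc0 h⟩

/-- The complement of the unit-value region: the discs of `0` and of `∞`. -/
theorem not_units_valRing_iff {P : Place K F} (hP : HasValues P) {f : F}
    (hf : ∀ c : K, f ≠ algebraMap K F c) :
    ¬ (f ∈ valRing A P ∧ f⁻¹ ∈ valRing A P) ↔ H74.InDisc A f 0 P ∨ H74.InDisc A f⁻¹ 0 P := by
  rw [inDisc_zero_iff hf, inDisc_zero_iff (inv_ne_algebraMap hf), inv_inv]
  constructor
  · intro h
    rcases mem_or_inv_mem_valRing (A := A) hP f with h1 | h1
    · exact Or.inl ⟨h1, fun h2 => h ⟨h1, h2⟩⟩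
    · exact Or.inr ⟨h1, fun h2 => h ⟨h2, h1⟩⟩
  · rintro (⟨-, h2⟩ | ⟨-, h2⟩) ⟨h3, h4⟩
    · exact h2 h4
    · exact h2 h3

/-- The complement of the integral region: the disc of `∞`. -/
theorem not_mem_valRing_iff {P : Place K F} (hP : HasValues P) {f : F}
    (hf : ∀ c : K, f ≠ algebraMap K F c) :
    f ∉ valRing A P ↔ H74.InDisc A f⁻¹ 0 P := by
  rw [inDisc_zero_iff (inv_ne_algebraMap hf), inv_inv]
  constructor
  · intro h
    exact ⟨(mem_or_inv_mem_valRing (A := A) hP f).resolve_left h, h⟩
  · rintro ⟨-, h⟩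
    exact h

/-- Every place lies in a finite disc or in the disc at infinity (of any non-constant `f`). -/
theorem inDisc_or_inDisc_inv {P : Place K F} (hP : HasValues P) {f : F}
    (hf : ∀ c : K, f ≠ algebraMap K F c) :
    (∃ b : K, b ∈ A ∧ H74.InDisc A f b P) ∨ H74.InDisc A f⁻¹ 0 P := by
  by_cases h : f ∈ valRing A P
  · exact Or.inl ((mem_valRing_iff_inDisc hf).mp h)
  · exact Or.inr ((not_mem_valRing_iff hP hf).mp h)

/-- Evaluation of an integral polynomial stays in `valRing A P`. -/
theorem eval₂_int_mem_valRing {P : Place K F} {x : F} (hx : x ∈ valRing A P)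
    (p : Polynomial ℤ) : p.eval₂ (Int.castRingHom F) x ∈ valRing A P := by
  rw [Polynomial.eval₂_eq_sum_range]
  refine sum_mem fun i _ => mul_mem ?_ (pow_mem hx i)
  rw [eq_intCast]
  exact intCast_mem (valRing A P) _

/-- **(E-b), Hauptmodul form.** If `j x = nm(x)` with `nm ∈ ℤ[X]` monic of degree `≥ 2` and
`nm(0)` a unit of `A`, then `j` has a value in `A` at `P` iff `x` has a unit value at `P`. -/
theorem mem_valRing_iff_of_rel {P : Place K F} (hP : HasValues P) (nm : Polynomial ℤ)
    (hnm : nm.Monic) (hdeg : 2 ≤ nm.natDegree) (h0 : ((nm.eval 0 : ℤ) : K) ≠ 0)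
    (h0i : ((nm.eval 0 : ℤ) : K)⁻¹ ∈ A) {j x : F} (hx : x ≠ 0)
    (hrel : j * x = nm.eval₂ (Int.castRingHom F) x) :
    j ∈ valRing A P ↔ (x ∈ valRing A P ∧ x⁻¹ ∈ valRing A P) := by
  constructor
  · intro hj
    -- `x` is a root of the monic polynomial `nm - j X` over `valRing A P`
    have hxB : x ∈ valRing A P := by
      let B := valSubring A hP
      let jB : B := ⟨j, hj⟩
      have hmon : (nm.map (Int.castRingHom B) - Polynomial.C jB * Polynomial.X).Monic := by
        apply Polynomial.Monic.sub_of_left (hnm.map _)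
        have h1 : (Polynomial.C jB * Polynomial.X : Polynomial B).degree ≤ 1 := by
          refine (Polynomial.degree_C_mul_X_le jB)
        have h2 : ((nm.map (Int.castRingHom B)).degree) = (nm.natDegree : WithBot ℕ) := by
          rw [Polynomial.degree_eq_natDegree (hnm.map (Int.castRingHom B)).ne_zero,
            hnm.natDegree_map]
        rw [h2]
        refine lt_of_le_of_lt h1 ?_
        exact_mod_cast (by omega : 1 < nm.natDegree)
      refine mem_valRing_of_isIntegral_valSubring hP ⟨_, hmon, ?_⟩
      rw [Polynomial.eval₂_sub, Polynomial.eval₂_mul, Polynomial.eval₂_C, Polynomial.eval₂_X,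
        Polynomial.eval₂_map]
      have e : (algebraMap B F).comp (Int.castRingHom B) = Int.castRingHom F :=
        RingHom.ext_int _ _
      rw [e, ← hrel]
      show j * x - j * x = 0
      exact sub_self _
    refine ⟨hxB, ?_⟩
    -- `nm(0) = x (j - q(x))`
    have hdiv : nm.divX * Polynomial.X + Polynomial.C (nm.coeff 0) = nm := nm.divX_mul_X_add
    have h1 : nm.eval₂ (Int.castRingHom F) x
        = nm.divX.eval₂ (Int.castRingHom F) x * x + ((nm.coeff 0 : ℤ) : F) := by
      conv_lhs => rw [← hdiv]
      rw [Polynomial.eval₂_add, Polynomial.eval₂_mul, Polynomial.eval₂_X, Polynomial.eval₂_C,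
        eq_intCast]
    have hc0 : nm.coeff 0 = nm.eval 0 := Polynomial.coeff_zero_eq_eval_zero nm
    have hcast : ((nm.eval 0 : ℤ) : F) = algebraMap K F ((nm.eval 0 : ℤ) : K) := by
      rw [map_intCast]
    have hne : algebraMap K F ((nm.eval 0 : ℤ) : K) ≠ 0 := (map_ne_zero _).mpr h0
    have h2 : x⁻¹ = (j - nm.divX.eval₂ (Int.castRingHom F) x)
        * algebraMap K F (((nm.eval 0 : ℤ) : K)⁻¹) := by
      rw [map_inv₀]
      have h3 : (j - nm.divX.eval₂ (Int.castRingHom F) x) * x
          = algebraMap K F ((nm.eval 0 : ℤ) : K) := by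
        rw [sub_mul, hrel, h1, hc0, hcast]; ring
      field_simp
      rw [← h3]
      ring
    rw [h2]
    exact mul_mem (sub_mem hj (eval₂_int_mem_valRing hxB _)) (algebraMap_mem_valRing_iff.mpr h0i)
  · rintro ⟨hxB, hxi⟩
    have h1 : j = nm.eval₂ (Int.castRingHom F) x * x⁻¹ := by
      rw [← hrel, mul_assoc, mul_inv_cancel₀ hx, mul_one]
    rw [h1]
    exact mul_mem (eval₂_int_mem_valRing hxB _) hxi

end Basic

/-! ### Transport -/

section Transport

variable {K : Type*} [Field K] (A : ValuationSubring K) {F₁ F₂ : Type*} [Field F₁] [Field F₂]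
  [Algebra K F₁] [Algebra K F₂]

theorem mem_nonunits_restrictAlong_iff (φ : F₁ →ₐ[K] F₂) (hφ : φ.toRingHom.IsIntegral)
    (w : Place K F₂) (h : F₁) :
    h ∈ (w.restrictAlong φ hφ).toValuationSubring.nonunits ↔
      φ h ∈ w.toValuationSubring.nonunits := by
  rw [ValuationSubring.mem_nonunits_iff_or, ValuationSubring.mem_nonunits_iff_or]
  have e1 : (φ h = 0) ↔ h = 0 := map_eq_zero φ
  have e2 : h⁻¹ ∈ (w.restrictAlong φ hφ).toValuationSubring ↔ (φ h)⁻¹ ∈ w.toValuationSubring := by
    rw [← map_inv₀]
    rfl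
  rw [e1, e2]

theorem mem_restrictAlong_iff (φ : F₁ →ₐ[K] F₂) (hφ : φ.toRingHom.IsIntegral)
    (w : Place K F₂) (h : F₁) :
    h ∈ (w.restrictAlong φ hφ).toValuationSubring ↔ φ h ∈ w.toValuationSubring := Iff.rfl

/-- The region of `f` pulls back to the region of `φ f`. -/
theorem mem_valRing_restrictAlong_iff (φ : F₁ →ₐ[K] F₂) (hφ : φ.toRingHom.IsIntegral)
    (w : Place K F₂) (f : F₁) :
    f ∈ valRing A (w.restrictAlong φ hφ) ↔ φ f ∈ valRing A w := by
  refine exists_congr fun c => and_congr_right fun _ => ?_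
  rw [mem_nonunits_restrictAlong_iff, map_sub, φ.commutes]

theorem HasValues.restrictAlong (φ : F₁ →ₐ[K] F₂) (hφ : φ.toRingHom.IsIntegral)
    {w : Place K F₂} (hw : HasValues w) : HasValues (w.restrictAlong φ hφ) := by
  intro f hf
  obtain ⟨a, ha⟩ := hw (φ f) hf
  refine ⟨a, ?_⟩
  rw [mem_nonunits_restrictAlong_iff, map_sub, φ.commutes]
  exact ha

end Transport

section Galois

variable {K : Type*} [Field K] (A : ValuationSubring K) {F : Type*} [Field F] [Algebra K F]

theorem smul_mem_smul_place_iff (g : SemilinearAut K F) (P : Place K F) (h : F) :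
    g • h ∈ (g • P).toValuationSubring ↔ h ∈ P.toValuationSubring := by
  rw [SemilinearAut.smul_toValuationSubring]
  exact ValuationSubring.smul_mem_pointwise_smul_iff

theorem smul_mem_nonunits_smul_iff (g : SemilinearAut K F) (P : Place K F) (h : F) :
    g • h ∈ (g • P).toValuationSubring.nonunits ↔ h ∈ P.toValuationSubring.nonunits := by
  rw [ValuationSubring.mem_nonunits_iff_or, ValuationSubring.mem_nonunits_iff_or,
    ← smul_inv'', smul_mem_smul_place_iff, smul_eq_zero_iff_eq]

/-- The region of `g • f` at `g • P` is the region of `f` at `P`, for a semilinear automorphism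
`g` whose base automorphism stabilises `A`. -/
theorem smul_mem_valRing_smul_iff (g : SemilinearAut K F)
    (hg : ∀ a : K, SemilinearAut.baseAut g a ∈ A ↔ a ∈ A) (P : Place K F) (f : F) :
    g • f ∈ valRing A (g • P) ↔ f ∈ valRing A P := by
  constructor
  · rintro ⟨c', hc', h⟩
    refine ⟨(SemilinearAut.baseAut g).symm c', ?_, ?_⟩
    · rw [← hg, RingEquiv.apply_symm_apply]
      exact hc'
    · rw [← smul_mem_nonunits_smul_iff g, smul_sub, SemilinearAut.smul_algebraMap,
        RingEquiv.apply_symm_apply]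
      exact h
  · rintro ⟨c, hc, h⟩
    refine ⟨SemilinearAut.baseAut g c, (hg c).mpr hc, ?_⟩
    rw [← SemilinearAut.smul_algebraMap, ← smul_sub, smul_mem_nonunits_smul_iff]
    exact h

/-- If `g` fixes `f` and stabilises `A`, the integral region of `f` is `g`-stable. -/
theorem mem_valRing_smul_iff (g : SemilinearAut K F)
    (hg : ∀ a : K, SemilinearAut.baseAut g a ∈ A ↔ a ∈ A) (P : Place K F) {f : F}
    (hf : g • f = f) : f ∈ valRing A (g • P) ↔ f ∈ valRing A P := by
  conv_lhs => rw [← hf]
  exact smul_mem_valRing_smul_iff A g hg P f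

theorem HasValues.smul (g : SemilinearAut K F) {P : Place K F} (hP : HasValues P) :
    HasValues (g • P) := by
  intro f hf
  have hf' : g⁻¹ • f ∈ P.toValuationSubring := by
    rw [← smul_mem_smul_place_iff g, smul_inv_smul]
    exact hf
  obtain ⟨a, ha⟩ := hP _ hf'
  refine ⟨SemilinearAut.baseAut g a, ?_⟩
  rw [← smul_mem_nonunits_smul_iff g, smul_sub, smul_inv_smul, SemilinearAut.smul_algebraMap]
    at ha
  exact ha

end Galois

end Fermat.Agent.S37.H46
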