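/-
S37 / package P-E (helper46): region lemmas at the modular function fields `F_N = FN N` over `ℚ̄`.

* `hasValues_FN`          : every place of `F_N / ℚ̄` has values in `ℚ̄`.
* `mem_valRing_jq_iff`    : (E-a) all the functions `j(q^d)`, `d ∣ N'`, of `F_{N'}` have the SAME
                            integral region (modular equations `Φ_p`, monic in both variables).
* `IN A N`                : the integral region `{P | j(q^N)(P) ∈ A}` of `F_N`, and its
                            descriptions `mem_IN_iff_jFN`, `mem_IN_iff_inDisc` (E-b, `x = jtop`),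
                            `mem_IN_iff_units_of_rel` / `not_mem_IN_iff_of_rel` (E-b, Hauptmodul).
* stability: `restrictAlong_alpha_mem_IN_iff`, `restrictAlong_beta_mem_IN_iff`,
  `restrictAlong_alpha_iff_beta` (Hecke neighbours, `V`-fibres), `smul_mem_IN_iff` (Galois).
-/
import Mathlib
import Fermat.Agent.S37.H46.RegionCore
import Fermat.Agent.S18.H28.BridgeDefs
import Fermat.Agent.S18.H13.PrincDiv
import Fermat.Agent.S18.H52.JSeries
import Fermat.Agent.S28.H53.Step
import Fermat.Agent.S28.H26.ModPolys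
import Fermat.Prelude.Def_ModularCurve_HeckeOperator

set_option autoImplicit false

open AlgebraicCurve ModularCurve

noncomputable section

namespace Fermat.Agent.S37.H46

open Fermat.Agent.S28 Fermat.Agent.S18 Fermat.Agent.S18.H74

/-! ### The modular equations, at the level of series -/

section Series

variable (K : Type) [Field K]

/-- `Φ_p(j(q), j(q^p)) = 0`. -/
theorem evalY_eval_jq {p : ℕ} [NeZero p] {Φ : Polynomial (Polynomial ℤ)} (hΦ : IsModPoly p Φ)
    (ζ : Kˣ) (hζ : IsPrimitiveRoot ζ p) :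
    (evalY (qExpand K p (jqModC K)) Φ).eval (jqModC K) = 0 := by
  rw [H53.modPoly_fact_field K hΦ ζ hζ, Polynomial.eval_mul, Polynomial.eval_prod,
    Finset.prod_eq_zero (Finset.mem_range.mpr (Nat.pos_of_ne_zero (NeZero.ne p)))
      (by rw [pow_zero, H53.qScale_one_apply]; simp), mul_zero]

/-- `Φ_p(j(q^p), j(q)) = 0`. -/
theorem evalY_eval_jqp {p : ℕ} [NeZero p] {Φ : Polynomial (Polynomial ℤ)} (hΦ : IsModPoly p Φ)
    (ζ : Kˣ) (hζ : IsPrimitiveRoot ζ p) :
    (evalY (jqModC K) Φ).eval (qExpand K p (jqModC K)) = 0 := by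
  have h : (evalY (qExpand K p (jqModC K)) Φ).eval (qExpand K (p * p) (jqModC K)) = 0 := by
    rw [H53.modPoly_fact_field K hΦ ζ hζ, Polynomial.eval_mul]
    simp
  have h2 : qExpand K p ((evalY (jqModC K) Φ).eval (qExpand K p (jqModC K))) = 0 := by
    rw [← Polynomial.eval_map_apply, H53.evalY_map, qExpand_qExpand]
    exact h
  exact (map_eq_zero_iff _ (qExpand_injective (R := K) (N := p))).mp h2

/-- The two modular equations between `j(q^d)` and `j(q^{dp})`. -/
theorem evalY_eval_jq_level {p : ℕ} [NeZero p] {Φ : Polynomial (Polynomial ℤ)}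
    (hΦ : IsModPoly p Φ) (ζ : Kˣ) (hζ : IsPrimitiveRoot ζ p) (d : ℕ) [NeZero d] :
    (evalY (qExpand K (d * p) (jqModC K)) Φ).eval (qExpand K d (jqModC K)) = 0 ∧
    (evalY (qExpand K d (jqModC K)) Φ).eval (qExpand K (d * p) (jqModC K)) = 0 := by
  constructor
  · have h := congrArg (qExpand K d) (evalY_eval_jq K hΦ ζ hζ)
    rw [map_zero, ← Polynomial.eval_map_apply, H53.evalY_map, qExpand_qExpand] at h
    exact h
  · have h := congrArg (qExpand K d) (evalY_eval_jqp K hΦ ζ hζ)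
    rw [map_zero, ← Polynomial.eval_map_apply, H53.evalY_map, qExpand_qExpand] at h
    exact h

end Series

/-! ### Level `N'` -/

section Level

variable (A : ValuationSubring Kb)

theorem exists_zeta (p : ℕ) (hp : p.Prime) : ∃ ζ : Kbˣ, IsPrimitiveRoot ζ p := by
  have : NeZero (p : Kb) := ⟨by exact_mod_cast hp.ne_zero⟩
  obtain ⟨ζ, hζ⟩ := HasEnoughRootsOfUnity.exists_primitiveRoot Kb p
  exact ⟨(hζ.isUnit hp.ne_zero).unit, IsPrimitiveRoot.coe_units_iff.mp (by simpa using hζ)⟩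

/-- Every place of `F_N / ℚ̄` has values. -/
theorem hasValues_FN (N : ℕ) [NeZero N] (P : Place Kb (FN N)) : HasValues P := by
  have := H13.isAlgebraic_adjoin_jgen N
  exact hasValues_of_isAlgClosed (Fermat.Agent.S24.jgen N) P

/-- Transport a relation between series to `F_{N'}`. -/
theorem rel_of_coe {N' : ℕ} (Φ : Polynomial (Polynomial ℤ)) {y z : FN N'}
    {Y Z : LaurentSeries Kb} (hy : (y : LaurentSeries Kb) = Y) (hz : (z : LaurentSeries Kb) = Z)
    (h : (evalY Z Φ).eval Y = 0) :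
    (Φ.map (Polynomial.eval₂RingHom (Int.castRingHom (FN N')) z)).eval y = 0 := by
  have hinj : Function.Injective (algebraMap (FN N') (LaurentSeries Kb)) :=
    (algebraMap (FN N') (LaurentSeries Kb)).injective
  apply hinj
  rw [map_zero]
  have e : (Φ.map (Polynomial.eval₂RingHom (Int.castRingHom (FN N')) z)) = evalY z Φ := rfl
  rw [e, ← Polynomial.eval_map_apply, H53.evalY_map]
  have e1 : algebraMap (FN N') (LaurentSeries Kb) z = Z := hz
  have e2 : algebraMap (FN N') (LaurentSeries Kb) y = Y := hy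
  rw [e1, e2]
  exact h

/-- One step: `j(q^d)` and `j(q^{dp})` have the same integral region. -/
theorem mem_valRing_jq_step {N' : ℕ} [NeZero N'] (P : Place Kb (FN N')) {p : ℕ} (hp : p.Prime)
    (d : ℕ) [NeZero d] [NeZero (d * p)] {y z : FN N'}
    (hy : (y : LaurentSeries Kb) = qExpand Kb d (jqModC Kb))
    (hz : (z : LaurentSeries Kb) = qExpand Kb (d * p) (jqModC Kb)) :
    y ∈ valRing A P ↔ z ∈ valRing A P := by
  have : NeZero p := ⟨hp.ne_zero⟩
  obtain ⟨Φ, hΦ⟩ := Fermat.Agent.S28.hasModPolys p hp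
  obtain ⟨ζ, hζ⟩ := exists_zeta p hp
  obtain ⟨h1, h2⟩ := evalY_eval_jq_level Kb hΦ ζ hζ d
  have hP := hasValues_FN N' P
  constructor
  · intro h
    exact mem_valRing_of_monic_rel hP Φ hΦ.monic h (rel_of_coe Φ hz hy h2)
  · intro h
    exact mem_valRing_of_monic_rel hP Φ hΦ.monic h (rel_of_coe Φ hy hz h1)

theorem coe_jFN_eq (N' d : ℕ) [NeZero d] (hd : d ∣ N') :
    ((H28.jFN N' d hd : FN N') : LaurentSeries Kb) = qExpand Kb d (jqModC Kb) :=
  coeffMap_jqNModC (algebraMap ℚ Kb) d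

/-- All `j(q^d)`, `d ∣ N'`, have the same integral region as `j(q)`. -/
theorem jFN_mem_valRing_iff_one {N' : ℕ} [NeZero N'] (P : Place Kb (FN N')) :
    ∀ (d : ℕ) (hd0 : d ≠ 0) (hd : d ∣ N'),
      (haveI : NeZero d := ⟨hd0⟩; H28.jFN N' d hd) ∈ valRing A P ↔
        H28.jFN N' 1 (one_dvd N') ∈ valRing A P := by
  intro d
  induction d using Nat.strong_induction_on with
  | _ d ih =>
    intro hd0 hd
    by_cases h1 : d = 1
    · subst h1
      exact Iff.rfl
    · have hp : (Nat.minFac d).Prime := Nat.minFac_prime h1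
      obtain ⟨e, he⟩ := Nat.minFac_dvd d
      have he' : d = e * Nat.minFac d := he.trans (mul_comm _ _)
      have he0 : e ≠ 0 := by
        rintro rfl
        exact hd0 (by rw [he', zero_mul])
      have hed : e ∣ N' := Dvd.dvd.trans ⟨Nat.minFac d, he'⟩ hd
      have helt : e < d := by
        rw [he']
        have := hp.one_lt
        nlinarith [Nat.pos_of_ne_zero he0]
      have : NeZero e := ⟨he0⟩
      have : NeZero d := ⟨hd0⟩
      have : NeZero (e * Nat.minFac d) := ⟨he' ▸ hd0⟩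
      have hstep := mem_valRing_jq_step A P hp e (y := H28.jFN N' e hed) (z := H28.jFN N' d hd)
        (coe_jFN_eq N' e hed)
        (by rw [coe_jFN_eq N' d hd]; exact qExpand_congr he' _)
      exact hstep.symm.trans (ih e helt he0 hed)

/-- **(E-a).** All the functions `j(q^d)`, `d ∣ N'`, of `F_{N'}` have the same integral region. -/
theorem jFN_mem_valRing_iff {N' : ℕ} [NeZero N'] (P : Place Kb (FN N')) (d d' : ℕ) [NeZero d]
    [NeZero d'] (hd : d ∣ N') (hd' : d' ∣ N') :
    H28.jFN N' d hd ∈ valRing A P ↔ H28.jFN N' d' hd' ∈ valRing A P :=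
  (jFN_mem_valRing_iff_one A P d (NeZero.ne d) hd).trans
    (jFN_mem_valRing_iff_one A P d' (NeZero.ne d') hd').symm

/-- **(E-a)**, for arbitrary elements with the given `q`-expansions. -/
theorem mem_valRing_jq_iff {N' : ℕ} [NeZero N'] (P : Place Kb (FN N')) {d d' : ℕ} [NeZero d]
    [NeZero d'] (hd : d ∣ N') (hd' : d' ∣ N') {y z : FN N'}
    (hy : (y : LaurentSeries Kb) = jqNModC Kb d) (hz : (z : LaurentSeries Kb) = jqNModC Kb d') :
    y ∈ valRing A P ↔ z ∈ valRing A P := by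
  have ey : y = H28.jFN N' d hd := Subtype.ext (hy.trans (coe_jFN_eq N' d hd).symm)
  have ez : z = H28.jFN N' d' hd' := Subtype.ext (hz.trans (coe_jFN_eq N' d' hd').symm)
  rw [ey, ez]
  exact jFN_mem_valRing_iff A P d d' hd hd'

/-- The integral region of `F_N`: the places where `j(q^N)` has a value in `A`. -/
def IN (N : ℕ) [NeZero N] : Set (Place Kb (FN N)) := {P | H28.jtop N ∈ valRing A P}

theorem mem_IN_iff {N : ℕ} [NeZero N] {P : Place Kb (FN N)} :
    P ∈ IN A N ↔ H28.jtop N ∈ valRing A P := Iff.rfl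

theorem mem_IN_iff_jFN {N : ℕ} [NeZero N] {P : Place Kb (FN N)} (d : ℕ) [NeZero d]
    (hd : d ∣ N) : P ∈ IN A N ↔ H28.jFN N d hd ∈ valRing A P :=
  jFN_mem_valRing_iff A P N d dvd_rfl hd

theorem mem_IN_iff_of_coe {N : ℕ} [NeZero N] {P : Place Kb (FN N)} {d : ℕ} [NeZero d]
    (hd : d ∣ N) {y : FN N} (hy : (y : LaurentSeries Kb) = jqNModC Kb d) :
    P ∈ IN A N ↔ y ∈ valRing A P :=
  mem_valRing_jq_iff A P dvd_rfl hd (coe_jFN_eq N N dvd_rfl) hy

theorem jFN_ne_algebraMap (N' d : ℕ) [NeZero d] (hd : d ∣ N') (c : Kb) :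
    H28.jFN N' d hd ≠ algebraMap Kb (FN N') c := by
  intro h
  have h1 : ((H28.jFN N' d hd : FN N') : LaurentSeries Kb)
      = algebraMap Kb (LaurentSeries Kb) c := by
    rw [h]; rfl
  rw [coe_jFN_eq] at h1
  exact H52.transcendental_jqNModC Kb d (by rw [jqNModC, h1]; exact isAlgebraic_algebraMap c)

/-- **(E-b)**, `x = jtop`: the integral region is the union of the finite discs of `jtop`. -/
theorem mem_IN_iff_inDisc {N : ℕ} [NeZero N] {P : Place Kb (FN N)} :
    P ∈ IN A N ↔ ∃ b : Kb, b ∈ A ∧ InDisc A (H28.jtop N) b P :=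
  mem_valRing_iff_inDisc (jFN_ne_algebraMap N N dvd_rfl)

/-- **(E-b)**, `x = jtop`: the complement of the integral region is the disc at infinity. -/
theorem not_mem_IN_iff_inDisc {N : ℕ} [NeZero N] {P : Place Kb (FN N)} :
    P ∉ IN A N ↔ InDisc A (H28.jtop N)⁻¹ 0 P :=
  not_mem_valRing_iff (hasValues_FN N P) (jFN_ne_algebraMap N N dvd_rfl)

/-- **(E-b)**, Hauptmodul form: if `jtop · x = nm(x)` with `nm` monic integral of degree `≥ 2`
and `nm(0)` a unit of `A`, the integral region is the union of the discs of `x` around the units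
of `A`. -/
theorem mem_IN_iff_units_of_rel {N : ℕ} [NeZero N] {P : Place Kb (FN N)} (nm : Polynomial ℤ)
    (hnm : nm.Monic) (hdeg : 2 ≤ nm.natDegree) (h0 : ((nm.eval 0 : ℤ) : Kb) ≠ 0)
    (h0i : ((nm.eval 0 : ℤ) : Kb)⁻¹ ∈ A) {x : FN N} (hx : ∀ c : Kb, x ≠ algebraMap Kb (FN N) c)
    (hrel : H28.jtop N * x = nm.eval₂ (Int.castRingHom (FN N)) x) :
    P ∈ IN A N ↔ ∃ b : Kb, b ≠ 0 ∧ b ∈ A ∧ b⁻¹ ∈ A ∧ InDisc A x b P := by
  have hx0 : x ≠ 0 := fun h => hx 0 (by rw [h, map_zero])
  rw [mem_IN_iff, mem_valRing_iff_of_rel (hasValues_FN N P) nm hnm hdeg h0 h0i hx0 hrel,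
    units_valRing_iff_inDisc hx]

/-- **(E-b)**, Hauptmodul form, complement: the discs of `0` and `∞` of `x`. -/
theorem not_mem_IN_iff_of_rel {N : ℕ} [NeZero N] {P : Place Kb (FN N)} (nm : Polynomial ℤ)
    (hnm : nm.Monic) (hdeg : 2 ≤ nm.natDegree) (h0 : ((nm.eval 0 : ℤ) : Kb) ≠ 0)
    (h0i : ((nm.eval 0 : ℤ) : Kb)⁻¹ ∈ A) {x : FN N} (hx : ∀ c : Kb, x ≠ algebraMap Kb (FN N) c)
    (hrel : H28.jtop N * x = nm.eval₂ (Int.castRingHom (FN N)) x) :
    P ∉ IN A N ↔ InDisc A x 0 P ∨ InDisc A x⁻¹ 0 P := by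
  have hx0 : x ≠ 0 := fun h => hx 0 (by rw [h, map_zero])
  rw [mem_IN_iff, mem_valRing_iff_of_rel (hasValues_FN N P) nm hnm hdeg h0 h0i hx0 hrel,
    not_units_valRing_iff (hasValues_FN N P) hx]

end Level

/-! ### Stability -/

section Stability

variable (A : ValuationSubring Kb) (N ℓ : ℕ) [NeZero N] [NeZero ℓ]

/-- The `α`-preimage of the integral region of `F_N` is the integral region of `F_{Nℓ}`. -/
theorem restrictAlong_alpha_mem_IN_iff (hα : (heckeAlphaBar Kb N ℓ).toRingHom.IsIntegral)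
    (w : Place Kb (FN (N * ℓ))) :
    w.restrictAlong (heckeAlphaBar Kb N ℓ) hα ∈ IN A N ↔ w ∈ IN A (N * ℓ) := by
  rw [mem_IN_iff, mem_valRing_restrictAlong_iff]
  refine (mem_IN_iff_of_coe A (P := w) (d := N) (dvd_mul_right N ℓ) ?_).symm
  rw [coe_heckeAlphaBar]
  exact (coe_jFN_eq N N dvd_rfl)

/-- The `β`-preimage (`V_ℓ`-preimage) of the integral region of `F_N` is the integral region of
`F_{Nℓ}`. -/
theorem restrictAlong_beta_mem_IN_iff (hβ : (heckeBetaBar Kb N ℓ).toRingHom.IsIntegral)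
    (w : Place Kb (FN (N * ℓ))) :
    w.restrictAlong (heckeBetaBar Kb N ℓ) hβ ∈ IN A N ↔ w ∈ IN A (N * ℓ) := by
  rw [mem_IN_iff, mem_valRing_restrictAlong_iff]
  refine (mem_IN_iff_of_coe A (P := w) (d := N * ℓ) dvd_rfl ?_).symm
  rw [coe_heckeBetaBar]
  have h1 : ((H28.jtop N : FN N) : LaurentSeries Kb) = qExpand Kb N (jqModC Kb) :=
    coe_jFN_eq N N dvd_rfl
  rw [h1, qExpand_qExpand, jqNModC]
  exact qExpand_congr (mul_comm ℓ N) _

/-- **T-stability.** The two images in `F_N` of a place of `F_{Nℓ}` lie in the same region. -/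
theorem restrictAlong_alpha_iff_beta (hα : (heckeAlphaBar Kb N ℓ).toRingHom.IsIntegral)
    (hβ : (heckeBetaBar Kb N ℓ).toRingHom.IsIntegral) (w : Place Kb (FN (N * ℓ))) :
    w.restrictAlong (heckeAlphaBar Kb N ℓ) hα ∈ IN A N ↔
      w.restrictAlong (heckeBetaBar Kb N ℓ) hβ ∈ IN A N :=
  (restrictAlong_alpha_mem_IN_iff A N ℓ hα w).trans (restrictAlong_beta_mem_IN_iff A N ℓ hβ w).symm

omit [NeZero N] in
theorem arithmeticGalois_smul_jFN (σ : Kb ≃ₐ[ℚ] Kb) (d : ℕ) [NeZero d] (hd : d ∣ N) :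
    arithmeticGalois (modularFunctionFieldFull N) σ • H28.jFN N d hd = H28.jFN N d hd := by
  apply Subtype.ext
  rw [coe_arithmeticGalois_smul, H28.coe_jFN, coeffEmb, coeffMap_coeffMap]
  exact coeffMap_congr (RingHom.ext fun a => by simp) _

/-- **Galois stability.** The integral region is stable under the arithmetic Galois action of
an automorphism stabilising `A`. -/
theorem smul_mem_IN_iff (σ : Kb ≃ₐ[ℚ] Kb) (hσ : ∀ a : Kb, σ a ∈ A ↔ a ∈ A)
    (P : Place Kb (FN N)) :
    arithmeticGalois (modularFunctionFieldFull N) σ • P ∈ IN A N ↔ P ∈ IN A N :=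
  mem_valRing_smul_iff A (arithmeticGalois (modularFunctionFieldFull N) σ) (fun a => hσ a) P
    (arithmeticGalois_smul_jFN N σ N dvd_rfl)

end Stability

end Fermat.Agent.S37.H46
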