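/-
S37 / package P-E (helper46): (E-b) for the Hauptmoduln of levels two and three.

`x = h₂(qⁿ) ∈ F_{N'}`, `N' = n * 2`, with `jtop N' · x = (x + 16)³`   (used for `ℓ = 3`), and
`x = h₃(qⁿ) ∈ F_{N'}`, `N' = n * 3`, with `jtop N' · x = (x + 27)(x + 3)³` (used for `ℓ = 2`):
the integral region `IN A N'` is the union of the residue discs of `x` around the UNITS of `A`,
and its complement is the union of the disc of `0` and the disc of `∞` of `x`.
-/
import Mathlib
import Fermat.Agent.S37.H46.RegionModular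
import Fermat.Agent.S18.H24.HauptMem

set_option autoImplicit false

open AlgebraicCurve ModularCurve

noncomputable section

namespace Fermat.Agent.S37.H46

open Fermat.Agent.S18 Fermat.Agent.S18.H74

variable (A : ValuationSubring Kb)

theorem ne_algebraMap_of_coe_transcendental {N' : ℕ} {x : FN N'}
    (hx : Transcendental Kb (x : LaurentSeries Kb)) (c : Kb) : x ≠ algebraMap Kb (FN N') c := by
  intro h
  apply hx
  have h1 : (x : LaurentSeries Kb) = algebraMap Kb (LaurentSeries Kb) c := by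
    rw [h]; rfl
  rw [h1]
  exact isAlgebraic_algebraMap c

section Two

variable (n N' : ℕ) [NeZero n] [NeZero N'] (hN' : N' = n * 2) {x : FN N'}
  (hx : (x : LaurentSeries Kb) = H24.hauptX2 Kb n)

include hN' hx

theorem jtop_mul_hauptX2 :
    H28.jtop N' * x = H28.nmTwo.eval₂ (Int.castRingHom (FN N')) x := by
  rw [H28.eval₂_nmTwo]
  apply Subtype.ext
  have h1 : ((H28.jtop N' : FN N') : LaurentSeries Kb) = jqNModC Kb N' := coe_jFN_eq N' N' dvd_rfl
  have h := H24.hauptX2_rel2 Kb n N' hN'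
  show ((H28.jtop N' : FN N') : LaurentSeries Kb) * (x : LaurentSeries Kb)
    = ((x : LaurentSeries Kb) + 16) ^ 3
  rw [h1, hx]
  exact h

omit hN' [NeZero N'] in
theorem hauptX2_ne_algebraMap (c : Kb) : x ≠ algebraMap Kb (FN N') c :=
  ne_algebraMap_of_coe_transcendental (hx ▸ H24.transcendental_hauptX2 Kb n) c

/-- **(E-b)**, level two (`2` a unit of `A`): the integral region is the union of the discs of
`x = h₂(qⁿ)` around the units of `A`. -/
theorem mem_IN_iff_units_two (h2 : (2 : Kb)⁻¹ ∈ A) (P : Place Kb (FN N')) :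
    P ∈ IN A N' ↔ ∃ b : Kb, b ≠ 0 ∧ b ∈ A ∧ b⁻¹ ∈ A ∧ InDisc A x b P := by
  refine mem_IN_iff_units_of_rel A H28.nmTwo H28.nmTwo_monic
    (by rw [H28.nmTwo_natDegree]; norm_num) ?_ ?_ (hauptX2_ne_algebraMap n N' hx)
    (jtop_mul_hauptX2 n N' hN' hx)
  · rw [H28.nmTwo_eval_zero]; norm_num
  · rw [H28.nmTwo_eval_zero]
    have h : (((4096 : ℤ) : Kb))⁻¹ = ((2 : Kb)⁻¹) ^ 12 := by norm_num
    rw [h]
    exact pow_mem h2 12

/-- **(E-b)**, level two, complement: the discs of `0` and `∞` of `x = h₂(qⁿ)`. -/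
theorem not_mem_IN_iff_two (h2 : (2 : Kb)⁻¹ ∈ A) (P : Place Kb (FN N')) :
    P ∉ IN A N' ↔ InDisc A x 0 P ∨ InDisc A x⁻¹ 0 P := by
  refine not_mem_IN_iff_of_rel A H28.nmTwo H28.nmTwo_monic
    (by rw [H28.nmTwo_natDegree]; norm_num) ?_ ?_ (hauptX2_ne_algebraMap n N' hx)
    (jtop_mul_hauptX2 n N' hN' hx)
  · rw [H28.nmTwo_eval_zero]; norm_num
  · rw [H28.nmTwo_eval_zero]
    have h : (((4096 : ℤ) : Kb))⁻¹ = ((2 : Kb)⁻¹) ^ 12 := by norm_num
    rw [h]
    exact pow_mem h2 12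

end Two

section Three

variable (n N' : ℕ) [NeZero n] [NeZero N'] (hN' : N' = n * 3) {x : FN N'}
  (hx : (x : LaurentSeries Kb) = H24.hauptX3 Kb n)

include hN' hx

theorem jtop_mul_hauptX3 :
    H28.jtop N' * x = H28.nmThree.eval₂ (Int.castRingHom (FN N')) x := by
  rw [H28.eval₂_nmThree]
  apply Subtype.ext
  have h1 : ((H28.jtop N' : FN N') : LaurentSeries Kb) = jqNModC Kb N' := coe_jFN_eq N' N' dvd_rfl
  have h := H24.hauptX3_rel2 Kb n N' hN'
  show ((H28.jtop N' : FN N') : LaurentSeries Kb) * (x : LaurentSeries Kb)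
    = ((x : LaurentSeries Kb) + 27) * ((x : LaurentSeries Kb) + 3) ^ 3
  rw [h1, hx]
  exact h

omit hN' [NeZero N'] in
theorem hauptX3_ne_algebraMap (c : Kb) : x ≠ algebraMap Kb (FN N') c :=
  ne_algebraMap_of_coe_transcendental (hx ▸ H24.transcendental_hauptX3 Kb n) c

/-- **(E-b)**, level three (`3` a unit of `A`): the integral region is the union of the discs of
`x = h₃(qⁿ)` around the units of `A`. -/
theorem mem_IN_iff_units_three (h3 : (3 : Kb)⁻¹ ∈ A) (P : Place Kb (FN N')) :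
    P ∈ IN A N' ↔ ∃ b : Kb, b ≠ 0 ∧ b ∈ A ∧ b⁻¹ ∈ A ∧ InDisc A x b P := by
  refine mem_IN_iff_units_of_rel A H28.nmThree H28.nmThree_monic
    (by rw [H28.nmThree_natDegree]; norm_num) ?_ ?_ (hauptX3_ne_algebraMap n N' hx)
    (jtop_mul_hauptX3 n N' hN' hx)
  · rw [H28.nmThree_eval_zero]; norm_num
  · rw [H28.nmThree_eval_zero]
    have h : (((729 : ℤ) : Kb))⁻¹ = ((3 : Kb)⁻¹) ^ 6 := by norm_num
    rw [h]
    exact pow_mem h3 6

/-- **(E-b)**, level three, complement: the discs of `0` and `∞` of `x = h₃(qⁿ)`. -/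
theorem not_mem_IN_iff_three (h3 : (3 : Kb)⁻¹ ∈ A) (P : Place Kb (FN N')) :
    P ∉ IN A N' ↔ InDisc A x 0 P ∨ InDisc A x⁻¹ 0 P := by
  refine not_mem_IN_iff_of_rel A H28.nmThree H28.nmThree_monic
    (by rw [H28.nmThree_natDegree]; norm_num) ?_ ?_ (hauptX3_ne_algebraMap n N' hx)
    (jtop_mul_hauptX3 n N' hN' hx)
  · rw [H28.nmThree_eval_zero]; norm_num
  · rw [H28.nmThree_eval_zero]
    have h : (((729 : ℤ) : Kb))⁻¹ = ((3 : Kb)⁻¹) ^ 6 := by norm_num
    rw [h]
    exact pow_mem h3 6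

end Three

end Fermat.Agent.S37.H46
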