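/-
S37 / package P-E (helper46): the region fields of `H36.EvalHyp`, for the two regions
`I = IN A N` (integral `j`) and `C = (IN A N)ᶜ`, in the class language `H38.cls A x` /
`H81.region A x T` of the consumers.

* class sets: `TI A = {d | d ≠ none}` (finite classes), `TU A = {d | d ≠ none ∧ d ≠ some 0}`
  (unit classes); both and their complements are proper (`TI_ne_univ`, ...).
* `mem_valRing_iff_cls`, `units_valRing_iff_cls` : generic bridge `valRing ↔ cls`.
* `IN_eq_region_top`, `IN_eq_region_of_rel`, `IN_eq_region_two`, `IN_eq_region_three` :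
  `IN A M = H81.region A x T` for `x = jtop M` (`T = TI A`) resp. a Hauptmodul (`T = TU A`),
  and the complements.
* the fields `region`, `region_smul`, `region_inv_smul`, `region_T`, `region_cls`.
-/
import Mathlib
import Fermat.Agent.S37.H46.RegionHaupt
import Fermat.Agent.S37.H81.Region

set_option autoImplicit false

open AlgebraicCurve ModularCurve

open scoped Pointwise

noncomputable section

namespace Fermat.Agent.S37.H46

open Fermat.Agent.S18 Fermat.Agent.S18.H74

/-! ### Class sets -/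

section ClassSets

variable {K : Type*} [Field K] (A : ValuationSubring K)

/-- The finite classes. -/
def TI : Set (Option (IsLocalRing.ResidueField A)) := {d | d ≠ none}

/-- The unit classes. -/
def TU : Set (Option (IsLocalRing.ResidueField A)) := {d | d ≠ none ∧ d ≠ some 0}

theorem TI_ne_univ : TI A ≠ Set.univ := fun h =>
  (h ▸ Set.mem_univ (none : Option (IsLocalRing.ResidueField A)) : none ∈ TI A) rfl

theorem TI_compl_ne_univ : (TI A)ᶜ ≠ Set.univ := fun h =>
  (h ▸ Set.mem_univ (some 0 : Option (IsLocalRing.ResidueField A)) : some 0 ∈ (TI A)ᶜ)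
    (by simp [TI])

theorem TU_ne_univ : TU A ≠ Set.univ := fun h =>
  (h ▸ Set.mem_univ (none : Option (IsLocalRing.ResidueField A)) : none ∈ TU A).1 rfl

theorem TU_compl_ne_univ : (TU A)ᶜ ≠ Set.univ := fun h =>
  (h ▸ Set.mem_univ (some 1 : Option (IsLocalRing.ResidueField A)) : some 1 ∈ (TU A)ᶜ)
    (by simp [TU])

end ClassSets

/-! ### Generic bridge -/

section Bridge

variable {K : Type*} [Field K] {A : ValuationSubring K} {F : Type*} [Field F] [Algebra K F]

theorem cls_ne_none_iff (f : F) (P : Place K F) :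
    H38.cls A f P ≠ none ↔ ∃ c : K, c ∈ A ∧ 0 < P.ord (f - algebraMap K F c) := by
  classical
  unfold H38.cls
  constructor
  · intro h
    split_ifs at h with hc
    · obtain ⟨c, hc⟩ := hc
      exact ⟨c, c.2, hc⟩
    · exact absurd rfl h
  · rintro ⟨c, hcA, hc⟩
    rw [dif_pos ⟨⟨c, hcA⟩, hc⟩]
    exact Option.some_ne_none _

/-- The integral region of `f` is the region of the finite classes of `f`. -/
theorem mem_valRing_iff_cls {f : F} (hf : ∀ c : K, f ≠ algebraMap K F c) (P : Place K F) :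
    f ∈ valRing A P ↔ H38.cls A f P ∈ TI A := by
  rw [mem_valRing_iff_ord hf]
  exact (cls_ne_none_iff f P).symm

/-- The unit region of `f` is the region of the unit classes of `f`. -/
theorem units_valRing_iff_cls {f : F} (hf : ∀ c : K, f ≠ algebraMap K F c) (P : Place K F) :
    (f ∈ valRing A P ∧ f⁻¹ ∈ valRing A P) ↔ H38.cls A f P ∈ TU A := by
  rw [units_valRing_iff_inDisc hf]
  constructor
  · rintro ⟨b, hb0, hb, hbi, hd⟩
    have h1 := (H38.cls_eq_some_iff A f hb P).mpr hd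
    rw [h1]
    refine ⟨Option.some_ne_none _, ?_⟩
    intro h2
    have h3 : IsLocalRing.residue A ⟨b, hb⟩ = 0 := Option.some.inj h2
    rw [IsLocalRing.residue_eq_zero_iff, ← ValuationSubring.coe_mem_nonunits_iff] at h3
    exact not_mem_nonunits_of_inv_mem hb0 hbi h3
  · rintro ⟨h1, h2⟩
    obtain ⟨u, hu⟩ := Option.ne_none_iff_exists'.mp h1
    obtain ⟨a, rfl⟩ := IsLocalRing.residue_surjective u
    have ha : (a : K) ∉ A.nonunits := by
      intro h3
      apply h2
      rw [hu]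
      congr 1
      rw [IsLocalRing.residue_eq_zero_iff]
      exact ValuationSubring.coe_mem_nonunits_iff.mp h3
    obtain ⟨ha0, hai⟩ := inv_mem_of_not_mem_nonunits ha
    exact ⟨a, ha0, a.2, hai, (H38.cls_eq_some_iff A f a.2 P).mp hu⟩

end Bridge

/-! ### The regions of `F_M` as regions of classes -/

section Regions

variable (A : ValuationSubring Kb)

theorem region_compl {F : Type*} [Field F] [Algebra Kb F] (x : F)
    (T : Set (Option (IsLocalRing.ResidueField A))) :
    H81.region A x Tᶜ = (H81.region A x T)ᶜ := rfl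

/-- `x = jtop M`: the integral region is the region of the finite classes. -/
theorem IN_eq_region_top (M : ℕ) [NeZero M] :
    IN A M = H81.region A (H28.jtop M) (TI A) := by
  ext P
  exact mem_valRing_iff_cls (jFN_ne_algebraMap M M dvd_rfl) P

/-- Hauptmodul form: the integral region is the region of the unit classes of `x`. -/
theorem IN_eq_region_of_rel {M : ℕ} [NeZero M] (nm : Polynomial ℤ)
    (hnm : nm.Monic) (hdeg : 2 ≤ nm.natDegree) (h0 : ((nm.eval 0 : ℤ) : Kb) ≠ 0)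
    (h0i : ((nm.eval 0 : ℤ) : Kb)⁻¹ ∈ A) {x : FN M} (hx : ∀ c : Kb, x ≠ algebraMap Kb (FN M) c)
    (hrel : H28.jtop M * x = nm.eval₂ (Int.castRingHom (FN M)) x) :
    IN A M = H81.region A x (TU A) := by
  ext P
  have hx0 : x ≠ 0 := fun h => hx 0 (by rw [h, map_zero])
  rw [mem_IN_iff, mem_valRing_iff_of_rel (hasValues_FN M P) nm hnm hdeg h0 h0i hx0 hrel,
    units_valRing_iff_cls hx]
  rfl

/-- Level two (`2` a unit of `A`), `x = h₂(qⁿ)`, `M = n * 2`. -/
theorem IN_eq_region_two (n M : ℕ) [NeZero n] [NeZero M] (hM : M = n * 2) {x : FN M}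
    (hx : (x : LaurentSeries Kb) = H24.hauptX2 Kb n) (h2 : (2 : Kb)⁻¹ ∈ A) :
    IN A M = H81.region A x (TU A) := by
  refine IN_eq_region_of_rel A H28.nmTwo H28.nmTwo_monic
    (by rw [H28.nmTwo_natDegree]; norm_num) ?_ ?_ (hauptX2_ne_algebraMap n M hx)
    (jtop_mul_hauptX2 n M hM hx)
  · rw [H28.nmTwo_eval_zero]; norm_num
  · rw [H28.nmTwo_eval_zero]
    have h : (((4096 : ℤ) : Kb))⁻¹ = ((2 : Kb)⁻¹) ^ 12 := by norm_num
    rw [h]
    exact pow_mem h2 12

/-- Level three (`3` a unit of `A`), `x = h₃(qⁿ)`, `M = n * 3`. -/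
theorem IN_eq_region_three (n M : ℕ) [NeZero n] [NeZero M] (hM : M = n * 3) {x : FN M}
    (hx : (x : LaurentSeries Kb) = H24.hauptX3 Kb n) (h3 : (3 : Kb)⁻¹ ∈ A) :
    IN A M = H81.region A x (TU A) := by
  refine IN_eq_region_of_rel A H28.nmThree H28.nmThree_monic
    (by rw [H28.nmThree_natDegree]; norm_num) ?_ ?_ (hauptX3_ne_algebraMap n M hx)
    (jtop_mul_hauptX3 n M hM hx)
  · rw [H28.nmThree_eval_zero]; norm_num
  · rw [H28.nmThree_eval_zero]
    have h : (((729 : ℤ) : Kb))⁻¹ = ((3 : Kb)⁻¹) ^ 6 := by norm_num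
    rw [h]
    exact pow_mem h3 6

end Regions

/-! ### The region fields of `H36.EvalHyp` -/

section Fields

variable (A : ValuationSubring Kb) (N : ℕ) [NeZero N]

/-- `region`, for `V = heckeBetaBar Kb N p` (`R₁ = IN A N`, `R₂ = IN A (N * p)`). -/
theorem region_beta (p : ℕ) [NeZero p] (hV : (heckeBetaBar Kb N p).toRingHom.IsIntegral)
    (w : Place Kb (FN (N * p))) :
    w ∈ IN A (N * p) ↔ w.restrictAlong (heckeBetaBar Kb N p) hV ∈ IN A N :=
  (restrictAlong_beta_mem_IN_iff A N p hV w).symm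

/-- `region`, complements, for `V = heckeBetaBar Kb N p`. -/
theorem region_beta_compl (p : ℕ) [NeZero p]
    (hV : (heckeBetaBar Kb N p).toRingHom.IsIntegral) (w : Place Kb (FN (N * p))) :
    w ∈ (IN A (N * p))ᶜ ↔ w.restrictAlong (heckeBetaBar Kb N p) hV ∈ (IN A N)ᶜ :=
  not_congr (region_beta A N p hV w)

/-- `region`, for `V = heckeAlphaBar Kb N p`. -/
theorem region_alpha (p : ℕ) [NeZero p] (hV : (heckeAlphaBar Kb N p).toRingHom.IsIntegral)
    (w : Place Kb (FN (N * p))) :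
    w ∈ IN A (N * p) ↔ w.restrictAlong (heckeAlphaBar Kb N p) hV ∈ IN A N :=
  (restrictAlong_alpha_mem_IN_iff A N p hV w).symm

theorem region_alpha_compl (p : ℕ) [NeZero p]
    (hV : (heckeAlphaBar Kb N p).toRingHom.IsIntegral) (w : Place Kb (FN (N * p))) :
    w ∈ (IN A (N * p))ᶜ ↔ w.restrictAlong (heckeAlphaBar Kb N p) hV ∈ (IN A N)ᶜ :=
  not_congr (region_alpha A N p hV w)

/-- `region`, for any `V : F_N → F_M` with `V (jtop N) = jtop M` (e.g. `V = AlgHom.id`). -/
theorem region_of_map {M : ℕ} [NeZero M] (V : FN N →ₐ[Kb] FN M) (hV : V.toRingHom.IsIntegral)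
    (hj : V (H28.jtop N) = H28.jtop M) (w : Place Kb (FN M)) :
    w ∈ IN A M ↔ w.restrictAlong V hV ∈ IN A N := by
  rw [mem_IN_iff, mem_IN_iff, mem_valRing_restrictAlong_iff, hj]

theorem region_of_map_compl {M : ℕ} [NeZero M] (V : FN N →ₐ[Kb] FN M)
    (hV : V.toRingHom.IsIntegral) (hj : V (H28.jtop N) = H28.jtop M) (w : Place Kb (FN M)) :
    w ∈ (IN A M)ᶜ ↔ w.restrictAlong V hV ∈ (IN A N)ᶜ :=
  not_congr (region_of_map A N V hV hj w)

/-- `region`, for `V = AlgHom.id`. -/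
theorem region_id (hV : (AlgHom.id Kb (FN N)).toRingHom.IsIntegral) (w : Place Kb (FN N)) :
    w ∈ IN A N ↔ w.restrictAlong (AlgHom.id Kb (FN N)) hV ∈ IN A N :=
  region_of_map A N _ hV rfl w

theorem region_id_compl (hV : (AlgHom.id Kb (FN N)).toRingHom.IsIntegral)
    (w : Place Kb (FN N)) :
    w ∈ (IN A N)ᶜ ↔ w.restrictAlong (AlgHom.id Kb (FN N)) hV ∈ (IN A N)ᶜ :=
  not_congr (region_id A N hV w)

theorem map_mem_iff_of_mem_decomposition {σ : Kb ≃ₐ[ℚ] Kb}
    (hσ : σ ∈ A.decompositionSubgroup ℚ) (a : Kb) : σ a ∈ A ↔ a ∈ A := by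
  have h2 : σ • A = A := hσ
  constructor
  · intro h
    rw [← h2] at h
    exact ValuationSubring.smul_mem_pointwise_smul_iff.mp h
  · intro h
    have h1 : σ • a ∈ σ • A := ValuationSubring.smul_mem_pointwise_smul _ _ _ h
    rw [h2] at h1
    exact h1

/-- Galois stability, as an equivalence, for `σ` in the decomposition group of `A`. -/
theorem smul_mem_IN_iff_of_mem_decomposition {σ : Kb ≃ₐ[ℚ] Kb}
    (hσ : σ ∈ A.decompositionSubgroup ℚ) (P : Place Kb (FN N)) :
    arithmeticGalois (modularFunctionFieldFull N) σ • P ∈ IN A N ↔ P ∈ IN A N :=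
  smul_mem_IN_iff A N σ (map_mem_iff_of_mem_decomposition A hσ) P

theorem inv_smul_mem_IN_iff_of_mem_decomposition {σ : Kb ≃ₐ[ℚ] Kb}
    (hσ : σ ∈ A.decompositionSubgroup ℚ) (P : Place Kb (FN N)) :
    (arithmeticGalois (modularFunctionFieldFull N) σ)⁻¹ • P ∈ IN A N ↔ P ∈ IN A N := by
  rw [← smul_mem_IN_iff_of_mem_decomposition A N hσ
    ((arithmeticGalois (modularFunctionFieldFull N) σ)⁻¹ • P), smul_inv_smul]

/-- `region_smul` for `R₁ = IN A N`. -/
theorem region_smul {σ : Kb ≃ₐ[ℚ] Kb} (hσ : σ ∈ A.decompositionSubgroup ℚ) :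
    ∀ P ∈ IN A N, arithmeticGalois (modularFunctionFieldFull N) σ • P ∈ IN A N :=
  fun P hP => (smul_mem_IN_iff_of_mem_decomposition A N hσ P).mpr hP

/-- `region_inv_smul` for `R₁ = IN A N`. -/
theorem region_inv_smul {σ : Kb ≃ₐ[ℚ] Kb} (hσ : σ ∈ A.decompositionSubgroup ℚ) :
    ∀ P ∈ IN A N, (arithmeticGalois (modularFunctionFieldFull N) σ)⁻¹ • P ∈ IN A N :=
  fun P hP => (inv_smul_mem_IN_iff_of_mem_decomposition A N hσ P).mpr hP

/-- `region_smul` for `R₁ = (IN A N)ᶜ`. -/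
theorem region_smul_compl {σ : Kb ≃ₐ[ℚ] Kb} (hσ : σ ∈ A.decompositionSubgroup ℚ) :
    ∀ P ∈ (IN A N)ᶜ, arithmeticGalois (modularFunctionFieldFull N) σ • P ∈ (IN A N)ᶜ :=
  fun P hP h => hP ((smul_mem_IN_iff_of_mem_decomposition A N hσ P).mp h)

/-- `region_inv_smul` for `R₁ = (IN A N)ᶜ`. -/
theorem region_inv_smul_compl {σ : Kb ≃ₐ[ℚ] Kb} (hσ : σ ∈ A.decompositionSubgroup ℚ) :
    ∀ P ∈ (IN A N)ᶜ, (arithmeticGalois (modularFunctionFieldFull N) σ)⁻¹ • P ∈ (IN A N)ᶜ :=
  fun P hP h => hP ((inv_smul_mem_IN_iff_of_mem_decomposition A N hσ P).mp h)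

/-- `region_T` for `R₁ = IN A N`. -/
theorem region_T (ℓ : ℕ) [NeZero ℓ] (hα : (heckeAlphaBar Kb N ℓ).toRingHom.IsIntegral)
    (hβ : (heckeBetaBar Kb N ℓ).toRingHom.IsIntegral) :
    ∀ Q : Place Kb (FN (N * ℓ)), Q.restrictAlong (heckeBetaBar Kb N ℓ) hβ ∈ IN A N →
      Q.restrictAlong (heckeAlphaBar Kb N ℓ) hα ∈ IN A N :=
  fun Q h => (restrictAlong_alpha_iff_beta A N ℓ hα hβ Q).mpr h

/-- `region_T` for `R₁ = (IN A N)ᶜ`. -/
theorem region_T_compl (ℓ : ℕ) [NeZero ℓ] (hα : (heckeAlphaBar Kb N ℓ).toRingHom.IsIntegral)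
    (hβ : (heckeBetaBar Kb N ℓ).toRingHom.IsIntegral) :
    ∀ Q : Place Kb (FN (N * ℓ)), Q.restrictAlong (heckeBetaBar Kb N ℓ) hβ ∈ (IN A N)ᶜ →
      Q.restrictAlong (heckeAlphaBar Kb N ℓ) hα ∈ (IN A N)ᶜ :=
  fun Q h h' => h ((restrictAlong_alpha_iff_beta A N ℓ hα hβ Q).mp h')

/-- `region_cls`: a region of the form `H81.region A x T` (and its complement) is a union of
classes.  Use with `IN_eq_region_top` / `IN_eq_region_two` / `IN_eq_region_three`. -/
theorem region_cls_of_eq {M : ℕ} {x : FN M} {T : Set (Option (IsLocalRing.ResidueField A))}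
    {R : Set (Place Kb (FN M))} (hR : R = H81.region A x T) :
    ∀ w ∈ R, ∀ w' : Place Kb (FN M), H38.cls A x w' = H38.cls A x w → w' ∈ R := by
  subst hR
  exact H81.region_cls

theorem region_cls_compl_of_eq {M : ℕ} {x : FN M}
    {T : Set (Option (IsLocalRing.ResidueField A))}
    {R : Set (Place Kb (FN M))} (hR : R = H81.region A x T) :
    ∀ w ∈ Rᶜ, ∀ w' : Place Kb (FN M), H38.cls A x w' = H38.cls A x w → w' ∈ Rᶜ := by
  subst hR
  rw [← region_compl]
  exact H81.region_cls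

end Fields

end Fermat.Agent.S37.H46
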