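/-
S37 / package P-E (helper46): `H36.EvalHyp` for the two regions `I = IN A N` and
`C = (IN A N)ᶜ`, with the region fields discharged and all the other fields as hypotheses.

Levels: `F₁ = FN N`, `F₂ = FN (N * p)` via `V = heckeBetaBar Kb N p`, `F₃ = FN (N * ℓ)` via
`α, β = heckeAlphaBar, heckeBetaBar Kb N ℓ`; `g₁ = arithmeticGalois (modularFunctionFieldFull N) s`.
-/
import Mathlib
import Fermat.Agent.S37.H46.RegionEval
import Fermat.Agent.S37.H36.Eval

set_option autoImplicit false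

open AlgebraicCurve ModularCurve

open scoped Pointwise

noncomputable section

namespace Fermat.Agent.S37.H46

open Fermat.Agent.S37.H36 Fermat.Agent.S18 Fermat.Agent.S18.H74

set_option maxHeartbeats 4000000 in
/-- `EvalHyp` on the integral region. -/
theorem evalHyp_IN (A : ValuationSubring Kb) (N p ℓ : ℕ) [NeZero N] [NeZero p] [NeZero ℓ]
    [HasPrincipalDivisors Kb (FN (N * p))] [HasPrincipalDivisors Kb (FN (N * ℓ))]
    (O : ValuationSubring (FN (N * p))) {𝔇 : Type*} (cls : Place Kb (FN (N * p)) → 𝔇)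
    (hcls : ∀ w ∈ IN A (N * p), ∀ w' : Place Kb (FN (N * p)), cls w' = cls w →
      w' ∈ IN A (N * p))
    (hV : (heckeBetaBar Kb N p).toRingHom.IsIntegral)
    (hα : (heckeAlphaBar Kb N ℓ).toRingHom.IsIntegral)
    (hβ : (heckeBetaBar Kb N ℓ).toRingHom.IsIntegral)
    (s : Kb ≃ₐ[ℚ] Kb) (hs : s ∈ A.decompositionSubgroup ℚ)
    (B : Set (FN (N * p)))
    (normV : NormValueAlong (heckeBetaBar Kb N p) hV)
    (normβ : NormValueAlong (heckeBetaBar Kb N ℓ) hβ)
    (normInt : ∀ g : FN (N * p), g ∈ O →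
      heckeBetaBar Kb N p (normAlong (heckeBetaBar Kb N p) g) ∈ O)
    (kron : ∀ c : FN N, heckeBetaBar Kb N p c ∈ O →
      heckeBetaBar Kb N p (normAlong (heckeBetaBar Kb N ℓ) (heckeAlphaBar Kb N ℓ c)
        - ((arithmeticGalois (modularFunctionFieldFull N) s)⁻¹ • c) ^ ℓ
          * (arithmeticGalois (modularFunctionFieldFull N) s • c)) ∈ O.nonunits)
    (B_O : ∀ y ∈ B, y ∈ O) (B_reg : ∀ y ∈ B, ∀ w ∈ IN A (N * p), 0 ≤ w.ord y)
    (frob : ∀ a ∈ A, s a - a ^ ℓ ∈ A.nonunits)
    (inertia_one : ∀ Q : Place Kb (FN (N * ℓ)),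
      Q.inertiaDegAlong (heckeAlphaBar Kb N ℓ) hα = 1)
    (exists_over : ∀ P : Place Kb (FN N), ∃ w : Place Kb (FN (N * p)),
      w.restrictAlong (heckeBetaBar Kb N p) hV = P) :
    EvalHyp (K := Kb) (F₁ := FN N) (F₂ := FN (N * p)) (F₃ := FN (N * ℓ)) A O cls
      (heckeBetaBar Kb N p) hV (heckeAlphaBar Kb N ℓ) (heckeBetaBar Kb N ℓ) hα hβ
      (arithmeticGalois (modularFunctionFieldFull N) s) ℓ (IN A N) (IN A (N * p)) B :=
  { normV := normV
    normβ := normβ
    normInt := normInt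
    kron := kron
    region := region_beta A N p hV
    region_smul := region_smul A N hs
    region_inv_smul := region_inv_smul A N hs
    region_T := region_T A N ℓ hα hβ
    region_cls := hcls
    B_O := B_O
    B_reg := B_reg
    base_symm_mem := fun a ha =>
      (map_mem_iff_of_mem_decomposition A hs (s.symm a)).mp (by rw [s.apply_symm_apply]; exact ha)
    frob := frob
    inertia_one := inertia_one
    exists_over := exists_over }

set_option maxHeartbeats 4000000 in
/-- `EvalHyp` on the complement of the integral region. -/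
theorem evalHyp_IN_compl (A : ValuationSubring Kb) (N p ℓ : ℕ) [NeZero N] [NeZero p] [NeZero ℓ]
    [HasPrincipalDivisors Kb (FN (N * p))] [HasPrincipalDivisors Kb (FN (N * ℓ))]
    (O : ValuationSubring (FN (N * p))) {𝔇 : Type*} (cls : Place Kb (FN (N * p)) → 𝔇)
    (hcls : ∀ w ∈ (IN A (N * p))ᶜ, ∀ w' : Place Kb (FN (N * p)), cls w' = cls w →
      w' ∈ (IN A (N * p))ᶜ)
    (hV : (heckeBetaBar Kb N p).toRingHom.IsIntegral)
    (hα : (heckeAlphaBar Kb N ℓ).toRingHom.IsIntegral)
    (hβ : (heckeBetaBar Kb N ℓ).toRingHom.IsIntegral)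
    (s : Kb ≃ₐ[ℚ] Kb) (hs : s ∈ A.decompositionSubgroup ℚ)
    (B : Set (FN (N * p)))
    (normV : NormValueAlong (heckeBetaBar Kb N p) hV)
    (normβ : NormValueAlong (heckeBetaBar Kb N ℓ) hβ)
    (normInt : ∀ g : FN (N * p), g ∈ O →
      heckeBetaBar Kb N p (normAlong (heckeBetaBar Kb N p) g) ∈ O)
    (kron : ∀ c : FN N, heckeBetaBar Kb N p c ∈ O →
      heckeBetaBar Kb N p (normAlong (heckeBetaBar Kb N ℓ) (heckeAlphaBar Kb N ℓ c)
        - ((arithmeticGalois (modularFunctionFieldFull N) s)⁻¹ • c) ^ ℓ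
          * (arithmeticGalois (modularFunctionFieldFull N) s • c)) ∈ O.nonunits)
    (B_O : ∀ y ∈ B, y ∈ O) (B_reg : ∀ y ∈ B, ∀ w ∈ (IN A (N * p))ᶜ, 0 ≤ w.ord y)
    (frob : ∀ a ∈ A, s a - a ^ ℓ ∈ A.nonunits)
    (inertia_one : ∀ Q : Place Kb (FN (N * ℓ)),
      Q.inertiaDegAlong (heckeAlphaBar Kb N ℓ) hα = 1)
    (exists_over : ∀ P : Place Kb (FN N), ∃ w : Place Kb (FN (N * p)),
      w.restrictAlong (heckeBetaBar Kb N p) hV = P) :
    EvalHyp (K := Kb) (F₁ := FN N) (F₂ := FN (N * p)) (F₃ := FN (N * ℓ)) A O cls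
      (heckeBetaBar Kb N p) hV (heckeAlphaBar Kb N ℓ) (heckeBetaBar Kb N ℓ) hα hβ
      (arithmeticGalois (modularFunctionFieldFull N) s) ℓ (IN A N)ᶜ (IN A (N * p))ᶜ B :=
  { normV := normV
    normβ := normβ
    normInt := normInt
    kron := kron
    region := region_beta_compl A N p hV
    region_smul := region_smul_compl A N hs
    region_inv_smul := region_inv_smul_compl A N hs
    region_T := region_T_compl A N ℓ hα hβ
    region_cls := hcls
    B_O := B_O
    B_reg := B_reg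
    base_symm_mem := fun a ha =>
      (map_mem_iff_of_mem_decomposition A hs (s.symm a)).mp (by rw [s.apply_symm_apply]; exact ha)
    frob := frob
    inertia_one := inertia_one
    exists_over := exists_over }

end Fermat.Agent.S37.H46
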